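import Fermat.Agent.CFT.Flat.Local
import Fermat.Agent.CFT.Tangent.LocalBasic
import Fermat.Agent.CFT.TWPrimes.Mat

/-!
The two normal forms of a two dimensional split representation on a decomposition group at `p`:
a stable line, or tame inertia acting by `diag (λ, λ ^ p)`.
-/

set_option autoImplicit false
set_option linter.style.haveILetI false
set_option linter.unusedSectionVars false

noncomputable section

namespace Fermat.Agent.CFT.Tangent

open Fermat.Agent.Deform Fermat.Agent.Arith Fermat.Agent.CFT.Flat Module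
open scoped Matrix

section Matrices

variable {k : Type} [Field k]

theorem exists_eigvec {M : M2 k} {α β : k} (ht : M.trace = α + β) (hd : M.det = α * β) :
    ∃ v : Fin 2 → k, v ≠ 0 ∧ M *ᵥ v = α • v := by
  have h0 : (M - α • 1).det = 0 := by
    rw [Matrix.det_fin_two] at hd ⊢
    rw [Matrix.trace_fin_two] at ht
    simp only [Matrix.sub_apply, Matrix.smul_apply, Matrix.one_apply_eq, smul_eq_mul, mul_one,
      Matrix.one_apply_ne (show (0 : Fin 2) ≠ 1 by decide),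
      Matrix.one_apply_ne (show (1 : Fin 2) ≠ 0 by decide), mul_zero, sub_zero]
    linear_combination hd - α * ht
  obtain ⟨v, hv, hv0⟩ := Matrix.exists_mulVec_eq_zero_iff.mpr h0
  refine ⟨v, hv, ?_⟩
  rwa [Matrix.sub_mulVec, Matrix.smul_mulVec, Matrix.one_mulVec, sub_eq_zero] at hv0

theorem eigenvalue_mem {M : M2 k} {α β : k} (ht : M.trace = α + β) (hd : M.det = α * β)
    {e : k} {x : Fin 2 → k} (hx : x ≠ 0) (he : M *ᵥ x = e • x) : e = α ∨ e = β := by
  have h1 := congrArg (fun X : M2 k => X *ᵥ x) (TWPrimes.mul_self_eq M)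
  simp only [← Matrix.mulVec_mulVec, he, Matrix.mulVec_smul, Matrix.sub_mulVec, Matrix.smul_mulVec,
    Matrix.one_mulVec, ht, hd, smul_smul, ← sub_smul] at h1
  have h2 : (e * e - ((α + β) * e - α * β)) • x = 0 := by rw [sub_smul, h1, sub_self]
  have h3 : (e - α) * (e - β) = 0 := by
    linear_combination (smul_eq_zero.mp h2).resolve_right hx
  rcases mul_eq_zero.mp h3 with h | h
  · exact Or.inl (sub_eq_zero.mp h)
  · exact Or.inr (sub_eq_zero.mp h)

/-- A matrix with two repeated eigenvalues and of order prime to the characteristic is scalar. -/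
theorem eq_smul_of_pow_eq_one {M : M2 k} {α : k} (ht : M.trace = α + α) (hd : M.det = α * α)
    {m : ℕ} (hm : (m : k) ≠ 0) (hpow : M ^ m = 1) : M = α • 1 := by
  have hα : α ≠ 0 := fun h => by
    have h1 := congrArg Matrix.det hpow
    rw [Matrix.det_pow, hd, h, mul_zero, Matrix.det_one,
      zero_pow (fun h0 => hm (by rw [h0, Nat.cast_zero]))] at h1
    exact zero_ne_one h1
  by_contra hne
  set N := α⁻¹ • M - 1 with hN
  have hsq : N * N = 0 := by
    refine TWPrimes.sq_zero_of_trace_det ?_ ?_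
    · rw [hN, Matrix.trace_sub, Matrix.trace_smul, ht, Matrix.trace_one, Fintype.card_fin,
        smul_eq_mul]
      push_cast
      field_simp
      ring
    · rw [hN, Matrix.det_fin_two]
      rw [Matrix.trace_fin_two] at ht
      rw [Matrix.det_fin_two] at hd
      simp only [Matrix.sub_apply, Matrix.smul_apply, Matrix.one_apply_eq, smul_eq_mul,
        Matrix.one_apply_ne (show (0 : Fin 2) ≠ 1 by decide),
        Matrix.one_apply_ne (show (1 : Fin 2) ≠ 0 by decide), sub_zero]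
      field_simp
      linear_combination hd - α * ht
  have hN0 : N ≠ 0 := fun h => hne (by
    rw [hN, sub_eq_zero] at h
    rw [← h, smul_smul, mul_inv_cancel₀ hα, one_smul])
  have h1 := TWPrimes.pow_one_add hsq m
  rw [hN, add_sub_cancel, smul_pow, hpow, ← hN] at h1
  have h2 := congrArg (· * N) h1
  simp only [add_mul, smul_mul_assoc, one_mul, hsq, smul_zero, add_zero] at h2
  have h3 : (α⁻¹ ^ m - 1) • N = 0 := by rw [sub_smul, h2, one_smul, sub_self]
  rw [sub_eq_zero.mp ((smul_eq_zero.mp h3).resolve_right hN0), one_smul, left_eq_add] at h1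
  exact hN0 ((smul_eq_zero.mp h1).resolve_left hm)

end Matrices

variable {p : ℕ} [hp : Fact p.Prime] {k : Type} [Field k] [Finite k] [Algebra (ZMod p) k]
variable {r : GQ →* M2 k}

/-- Either a stable line, or tame inertia in diagonal form. -/
theorem exists_line_or_torus (hr : GaloisFactorsThroughFiniteLevel r)
    (hsplit : ∀ g, ∃ α β : k, (r g).trace = α + β ∧ (r g).det = α * β) :
    (∃ v : Fin 2 → k, v ≠ 0 ∧ ∀ g ∈ decG p, ∃ a : k, r g *ᵥ v = a • v) ∨
      ((∀ g ∈ tame p, r g = 1) ∧ ∀ τ ∈ inG p, ∃ (Z : (M2 k)ˣ) (l : k),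
        l ^ e₀ p = 1 ∧ conjM Z r τ = !![l, 0; 0, l ^ p]) := by
  classical
  haveI : CharP k p := charP_of_algebra
  obtain ⟨L₀, hL₀, hL₀'⟩ := hr
  haveI := hL₀
  haveI : Normal ℚ QBar := IsAlgClosure.normal ℚ QBar
  set L := IntermediateField.normalClosure ℚ L₀ QBar
  haveI : FiniteDimensional ℚ L := inferInstance
  haveI : Normal ℚ L := normalClosure.normal ℚ L₀ QBar
  haveI : IsGalois ℚ L := ⟨⟩
  haveI hnormal : L.fixingSubgroup.Normal := (InfiniteGalois.normal_iff_isGalois L).mpr ‹_›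
  have hL : ∀ g ∈ L.fixingSubgroup, r g = 1 := fun g hg =>
    hL₀' g fun x hx => (IntermediateField.mem_fixingSubgroup_iff _ _).mp hg x
      (L₀.le_normalClosure hx)
  set H := inG p ⊓ L.fixingSubgroup
  have hH : IsLevel p H := ⟨inf_le_left, L, inferInstance, le_rfl⟩
  have hnormD : ∀ g ∈ decG p, ∀ h ∈ H, g⁻¹ * h * g ∈ H := fun g hg h hh =>
    ⟨conj_mem_inG hg hh.1, by simpa using hnormal.conj_mem h hh.2 g⁻¹⟩
  obtain ⟨π, z, -, hzroot, -, -, hzH, hwild, hfr⟩ :=
    exists_tame_char p hH fun g hg => hnormD g (inG_le_decG p hg)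
  have hI := inG_le_decG p
  -- unipotence at wild inertia
  have hunip : ∀ g : inG p, z g = 1 → (r g - 1).trace = 0 ∧ (r g - 1) * (r g - 1) = 0 := by
    intro g hg
    obtain ⟨a, ha⟩ := hwild g hg
    have h1 : r g ^ p ^ a = 1 := by rw [← map_pow, ← Subgroup.coe_pow]; exact hL _ ha.2
    haveI : ExpChar (M2 k) p := .prime hp.out
    have h2 : (r g - 1) ^ p ^ a = 0 := by
      rw [sub_pow_expChar_pow_of_commute (p := p) _ (Commute.one_right (r g)), h1, one_pow, sub_self]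
    have h3 : (r g - 1).trace = 0 :=
      (Matrix.isNilpotent_trace_of_isNilpotent ⟨_, h2⟩).eq_zero
    refine ⟨h3, TWPrimes.sq_zero_of_trace_det h3 ?_⟩
    have h4 := congrArg Matrix.det h2
    rw [Matrix.det_pow, Matrix.det_zero] at h4
    exact (pow_eq_zero_iff (pow_ne_zero a hp.out.ne_zero)).mp h4
  by_cases hw : ∃ g₀ : inG p, z g₀ = 1 ∧ r g₀ ≠ 1
  · -- the fixed line of wild inertia
    obtain ⟨g₀, hg₀, hne⟩ := hw
    obtain ⟨hNt, hNs⟩ := hunip g₀ hg₀
    set N := r g₀ - 1 with hN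
    have hN0 : N ≠ 0 := sub_ne_zero.mpr hne
    obtain ⟨v, hv, hNv⟩ :=
      Matrix.exists_mulVec_eq_zero_iff.mpr (TWPrimes.det_eq_zero_of_sq hNs)
    have hfix : ∀ h : inG p, z h = 1 → r h *ᵥ v = v := by
      intro h hh
      obtain ⟨hMt, hMs⟩ := hunip h hh
      obtain ⟨hPt, -⟩ := hunip (g₀ * h) (by rw [map_mul, hg₀, hh, one_mul])
      set M := r h - 1 with hM
      have h1 : (N * M).trace = 0 := by
        have e : r (g₀ * h : inG p) - 1 = N * M + N + M := by
          rw [Subgroup.coe_mul, map_mul, hN, hM]; noncomm_ring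
        rwa [e, Matrix.trace_add, Matrix.trace_add, hNt, hMt, add_zero, add_zero] at hPt
      have h2 : N *ᵥ (M *ᵥ v) = 0 := by
        rw [Matrix.mulVec_mulVec, TWPrimes.anticomm_of_orth hNt hMt h1, Matrix.neg_mulVec,
          ← Matrix.mulVec_mulVec, hNv, Matrix.mulVec_zero, neg_zero]
      obtain ⟨a, ha⟩ := TWPrimes.exists_smul_of_mulVec_eq_zero hN0 hv h2 hNv
      have h3 : (a * a) • v = 0 := by
        rw [← smul_smul, ← ha, ← Matrix.mulVec_smul, ← ha, Matrix.mulVec_mulVec, hMs,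
          Matrix.zero_mulVec]
      rw [mul_self_eq_zero.mp ((smul_eq_zero.mp h3).resolve_right hv), zero_smul, hM,
        Matrix.sub_mulVec, Matrix.one_mulVec, sub_eq_zero] at ha
      exact ha
    refine Or.inl ⟨v, hv, fun g hg => ?_⟩
    let h : inG p := ⟨g⁻¹ * g₀ * g, conj_mem_inG hg g₀.2⟩
    have hzh : z h = 1 := by
      obtain ⟨a, ha⟩ := hwild g₀ hg₀
      obtain ⟨m, hm, hpm, hm1⟩ := hzroot h
      have h1 : z h ^ p ^ a = 1 := by
        rw [← map_pow]
        refine hzH _ ?_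
        have := hnormD g hg _ ha
        rw [Subgroup.coe_pow] at this ⊢
        show (g⁻¹ * g₀ * g) ^ p ^ a ∈ H
        have e : (g⁻¹ * (g₀ : GQ) * g) ^ p ^ a = g⁻¹ * (g₀ : GQ) ^ p ^ a * g :=
          by simpa using conj_pow (i := p ^ a) (a := g⁻¹) (b := (g₀ : GQ))
        rwa [e]
      have h2 := Nat.dvd_gcd (orderOf_dvd_of_pow_eq_one h1) (orderOf_dvd_of_pow_eq_one hm1)
      rw [((hp.out.coprime_iff_not_dvd.mpr hpm).pow_left a : Nat.Coprime _ _)] at h2
      exact orderOf_eq_one_iff.mp (Nat.eq_one_of_dvd_one h2)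
    have h1 : r g₀ *ᵥ (r g *ᵥ v) = r g *ᵥ v := by
      conv_rhs => rw [← hfix h hzh]
      rw [Matrix.mulVec_mulVec, Matrix.mulVec_mulVec, ← map_mul, ← map_mul]
      congr 2
      show (g₀ : GQ) * g = g * (g⁻¹ * g₀ * g)
      group
    exact TWPrimes.exists_smul_of_mulVec_eq_zero hN0 hv
      (by rw [hN, Matrix.sub_mulVec, Matrix.one_mulVec, h1, sub_self]) hNv
  -- wild inertia acts trivially
  simp only [not_exists, not_and, not_not] at hw
  have hz : ∀ g h : inG p, z g = z h → r g = r h := by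
    intro g h e
    have h1 : z (h⁻¹ * g) = 1 := by
      rw [map_mul, e, ← map_mul, inv_mul_cancel, map_one]
    have h2 := hw _ h1
    calc r g = r h * r ((h⁻¹ * g : inG p) : GQ) := by
          rw [← map_mul, Subgroup.coe_mul, Subgroup.coe_inv, mul_inv_cancel_left]
      _ = r h := by rw [h2, mul_one]
  have hord : ∀ g : inG p, ∃ m : ℕ, (m : k) ≠ 0 ∧ r g ^ m = 1 := by
    intro g
    obtain ⟨m, -, hpm, hm1⟩ := hzroot g
    refine ⟨m, fun h0 => hpm ((CharP.cast_eq_zero_iff k p m).mp h0), ?_⟩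
    rw [← map_pow, ← Subgroup.coe_pow, hz (g ^ m) 1 (by rw [map_pow, hm1, map_one]),
      Subgroup.coe_one, map_one]
  have hcomm : ∀ g h : inG p, r g * r h = r h * r g := fun g h => by
    rw [← map_mul, ← map_mul, ← Subgroup.coe_mul, ← Subgroup.coe_mul,
      hz (g * h) (h * g) (by rw [map_mul, map_mul, mul_comm])]
  obtain ⟨φ, hφ, -, hfrob⟩ := exists_frobenius_rad p
  have hconjI : ∀ g : inG p, φ * g * φ⁻¹ ∈ inG p := fun g => by
    have := conj_mem_inG (p := p) ((decG p).inv_mem hφ) g.2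
    rwa [inv_inv] at this
  have hphi : ∀ g : inG p, r (φ * g * φ⁻¹) = r g ^ p := fun g => by
    rw [← map_pow, ← Subgroup.coe_pow]
    refine hz ⟨_, hconjI g⟩ (g ^ p) ?_
    rw [map_pow]
    exact hfr φ hφ hfrob g ⟨_, hconjI g⟩ rfl
  have hdec : ∀ g ∈ decG p, ∃ (i : ℕ) (t : inG p), r g = r φ ^ i * r t := by
    intro g hg
    obtain ⟨i, h, t, hh, -, ht, rfl⟩ := exists_frobenius_decomp hφ hfrob hg L
    exact ⟨i, ⟨t, ht⟩, by rw [map_mul, map_mul, hL h hh, mul_one, map_pow]⟩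
  -- a common eigenvector gives a line
  have hline : ∀ v : Fin 2 → k, v ≠ 0 → (∃ a : k, r φ *ᵥ v = a • v) →
      (∀ t : inG p, ∃ a : k, r t *ᵥ v = a • v) →
      ∀ g ∈ decG p, ∃ a : k, r g *ᵥ v = a • v := by
    rintro v - ⟨a, ha⟩ ht g hg
    obtain ⟨i, t, e⟩ := hdec g hg
    obtain ⟨b, hb⟩ := ht t
    have hpow : ∀ i : ℕ, r φ ^ i *ᵥ v = a ^ i • v := fun i => by
      induction i with
      | zero => simp
      | succ i ih =>
        rw [pow_succ', ← Matrix.mulVec_mulVec, ih, Matrix.mulVec_smul, ha, smul_smul, pow_succ]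
    exact ⟨b * a ^ i, by rw [e, ← Matrix.mulVec_mulVec, hb, Matrix.mulVec_smul, hpow, smul_smul]⟩
  by_cases hsc : ∀ t : inG p, ∃ a : k, r t = a • (1 : M2 k)
  · obtain ⟨α, β, ht, hd⟩ := hsplit φ
    obtain ⟨v, hv, hv1⟩ := exists_eigvec ht hd
    refine Or.inl ⟨v, hv, hline v hv ⟨α, hv1⟩ fun t => ?_⟩
    obtain ⟨a, ha⟩ := hsc t
    exact ⟨a, by rw [ha, Matrix.smul_mulVec, Matrix.one_mulVec]⟩
  obtain ⟨g₁, hg₁⟩ := not_forall.mp hsc
  obtain ⟨α, β, ht, hd⟩ := hsplit g₁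
  have hαβ : α ≠ β := fun e => by
    subst e
    obtain ⟨m, hm, hm1⟩ := hord g₁
    exact hg₁ ⟨α, eq_smul_of_pow_eq_one ht hd hm hm1⟩
  obtain ⟨v, hv, hv1⟩ := exists_eigvec ht hd
  obtain ⟨w, hw0, hw1⟩ := exists_eigvec (M := r g₁) (α := β) (β := α)
    (by rw [ht, add_comm]) (by rw [hd, mul_comm])
  have huniq : ∀ {e : k} {x y : Fin 2 → k}, y ≠ 0 → r g₁ *ᵥ y = e • y → r g₁ *ᵥ x = e • x →
      ∃ a : k, x = a • y := by
    intro e x y hy hy1 hx1
    refine TWPrimes.exists_smul_of_mulVec_eq_zero (N := r g₁ - e • 1)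
      (sub_ne_zero.mpr fun h => hg₁ ⟨e, h⟩) hy ?_ ?_
    · rw [Matrix.sub_mulVec, Matrix.smul_mulVec, Matrix.one_mulVec, hx1, sub_self]
    · rw [Matrix.sub_mulVec, Matrix.smul_mulVec, Matrix.one_mulVec, hy1, sub_self]
  have heigI : ∀ {e : k} {y : Fin 2 → k}, y ≠ 0 → r g₁ *ᵥ y = e • y →
      ∀ t : inG p, ∃ a : k, r t *ᵥ y = a • y := by
    intro e y hy hy1 t
    refine huniq hy hy1 ?_
    rw [Matrix.mulVec_mulVec, hcomm, ← Matrix.mulVec_mulVec, hy1, Matrix.mulVec_smul]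
  have hinj : ∀ y : Fin 2 → k, y ≠ 0 → r φ *ᵥ y ≠ 0 := fun y hy h => hy (by
    rw [← Matrix.one_mulVec y, ← map_inv_mul r φ, ← Matrix.mulVec_mulVec, h, Matrix.mulVec_zero])
  have hperm : ∀ {e : k} {y : Fin 2 → k}, y ≠ 0 → r g₁ *ᵥ y = e • y →
      (∃ a : k, r φ *ᵥ y = a • v) ∨ ∃ a : k, r φ *ᵥ y = a • w := by
    intro e y hy hy1
    obtain ⟨a, ha⟩ := heigI hy hy1 ⟨φ⁻¹ * g₁ * φ, conj_mem_inG hφ g₁.2⟩
    have h1 : r g₁ *ᵥ (r φ *ᵥ y) = a • (r φ *ᵥ y) := by
      rw [← Matrix.mulVec_smul, ← ha, Matrix.mulVec_mulVec, Matrix.mulVec_mulVec, ← map_mul,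
        ← map_mul]
      congr 2
      show (g₁ : GQ) * φ = φ * (φ⁻¹ * g₁ * φ)
      group
    rcases eigenvalue_mem ht hd (hinj y hy) h1 with e1 | e1 <;> rw [e1] at h1
    · exact Or.inl (huniq hv hv1 h1)
    · exact Or.inr (huniq hw0 hw1 h1)
  rcases hperm hv hv1 with ⟨c, hc⟩ | ⟨c, hc⟩
  · exact Or.inl ⟨v, hv, hline v hv ⟨c, hc⟩ (heigI hv hv1)⟩
  rcases hperm hw0 hw1 with ⟨d, hd'⟩ | ⟨d, hd'⟩
  swap
  · exact Or.inl ⟨w, hw0, hline w hw0 ⟨d, hd'⟩ (heigI hw0 hw1)⟩
  -- the Frobenius relation on eigenvalues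
  have hpowv : ∀ {t : inG p} {e : k} {y : Fin 2 → k}, r t *ᵥ y = e • y → ∀ i : ℕ,
      r t ^ i *ᵥ y = e ^ i • y := fun {t e y} h i => by
    induction i with
    | zero => simp
    | succ i ih =>
      rw [pow_succ', ← Matrix.mulVec_mulVec, ih, Matrix.mulVec_smul, h, smul_smul, pow_succ]
  have hrel : ∀ {t : inG p} {la mu c : k} {x y : Fin 2 → k}, x ≠ 0 → y ≠ 0 →
      r t *ᵥ x = la • x → r t *ᵥ y = mu • y → r φ *ᵥ x = c • y → la = mu ^ p := by
    intro t la mu c x y hx hy hla hmu hxy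
    have hc0 : c ≠ 0 := fun h => hinj x hx (by rw [hxy, h, zero_smul])
    have h1 : r (φ * t * φ⁻¹) *ᵥ (r φ *ᵥ x) = la • (r φ *ᵥ x) := by
      rw [← Matrix.mulVec_smul, ← hla, Matrix.mulVec_mulVec, Matrix.mulVec_mulVec, ← map_mul,
        ← map_mul, inv_mul_cancel_right]
    rw [hphi, hxy, Matrix.mulVec_smul, hpowv hmu, smul_smul, smul_smul, ← sub_eq_zero,
      ← sub_smul] at h1
    refine mul_left_cancel₀ hc0 ?_
    linear_combination -((smul_eq_zero.mp h1).resolve_right hy)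
  have hspec : ∀ t : inG p, ∃ l : k, r t *ᵥ v = l • v ∧ r t *ᵥ w = l ^ p • w ∧ l ^ e₀ p = 1 := by
    intro t
    obtain ⟨l, hl⟩ := heigI hv hv1 t
    obtain ⟨u, hu⟩ := heigI hw0 hw1 t
    have h1 : l = u ^ p := hrel hv hw0 hl hu hc
    have h2 : u = l ^ p := hrel hw0 hv hu hl hd'
    have hl0 : l ≠ 0 := fun h => hv (by
      rw [h, zero_smul] at hl
      rw [← Matrix.one_mulVec v, ← map_inv_mul r (t : GQ), ← Matrix.mulVec_mulVec, hl,
        Matrix.mulVec_zero])
    refine ⟨l, hl, h2 ▸ hu, mul_left_cancel₀ hl0 ?_⟩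
    rw [mul_one, ← pow_succ', e₀, Nat.sub_add_cancel (Nat.one_le_pow 2 p hp.out.pos), sq, pow_mul,
      ← h2, ← h1]
  let Zm : M2 k := !![v 0, w 0; v 1, w 1]
  have hZcol : ∀ x : Fin 2 → k, Zm *ᵥ x = x 0 • v + x 1 • w := fun x => by
    ext i
    fin_cases i <;> simp [Zm, Matrix.mulVec, dotProduct, Fin.sum_univ_two, mul_comm] <;> ring
  have hZdet : Zm.det ≠ 0 := by
    intro h0
    obtain ⟨x, hx, hx0⟩ := Matrix.exists_mulVec_eq_zero_iff.mpr h0
    rw [hZcol] at hx0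
    have h1 := congrArg (r g₁ *ᵥ ·) hx0
    simp only [Matrix.mulVec_add, Matrix.mulVec_smul, hv1, hw1, Matrix.mulVec_zero] at h1
    have h2 : (x 0 * (α - β)) • v = 0 := by
      have h3 := congrArg (β • ·) hx0
      simp only [smul_add, smul_zero] at h3
      linear_combination (norm := module) h1 - h3
    have hx0' : x 0 = 0 :=
      (mul_eq_zero.mp ((smul_eq_zero.mp h2).resolve_right hv)).resolve_right (sub_ne_zero.mpr hαβ)
    rw [hx0', zero_smul, zero_add] at hx0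
    exact hx (funext fun i => by
      fin_cases i
      · exact hx0'
      · exact (smul_eq_zero.mp hx0).resolve_right hw0)
  let Z : (M2 k)ˣ := Zm.nonsingInvUnit (isUnit_iff_ne_zero.mpr hZdet)
  have hdiag : ∀ t : inG p, ∃ l : k, l ^ e₀ p = 1 ∧ conjM Z r t = !![l, 0; 0, l ^ p] := by
    intro t
    obtain ⟨l, h1, h2, h3⟩ := hspec t
    refine ⟨l, h3, ?_⟩
    have e : r t * Zm = Zm * !![l, 0; 0, l ^ p] := by
      have a := fun i => congrFun h1 i
      have b := fun i => congrFun h2 i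
      simp only [Matrix.mulVec, dotProduct, Fin.sum_univ_two, Pi.smul_apply, smul_eq_mul] at a b
      ext i j
      fin_cases j
      · simp [Zm, Matrix.mul_apply, Fin.sum_univ_two]
        rw [a i]; fin_cases i <;> simp [mul_comm]
      · simp [Zm, Matrix.mul_apply, Fin.sum_univ_two]
        rw [b i]; fin_cases i <;> simp [mul_comm]
    rw [conjM_apply, mul_assoc, show ((Z : M2 k)) = Zm from rfl, e, ← mul_assoc]
    exact (congrArg (· * !![l, 0; 0, l ^ p]) Z.inv_mul).trans (one_mul _)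
  refine Or.inr ⟨fun g hg => ?_, fun τ hτ => ⟨Z, hdiag ⟨τ, hτ⟩⟩⟩
  refine eq_one_of_mem_tame p (r.comp (inG p).subtype) hH (fun g hg => hnormD g (hI hg))
    (fun h hh => hL h hh.2) (fun t => ?_) hg
  obtain ⟨l, hl, e⟩ := hdiag t
  show r t ^ e₀ p = 1
  have e1 : conjM Z r ((t : GQ) ^ e₀ p) = 1 := by
    rw [map_pow, e]
    have : ∀ i : ℕ, !![l, 0; 0, l ^ p] ^ i = !![l ^ i, 0; 0, (l ^ p) ^ i] := fun i => by
      induction i with
      | zero => ext a b; fin_cases a <;> fin_cases b <;> simp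
      | succ i ih =>
        rw [pow_succ, ih]
        ext a b; fin_cases a <;> fin_cases b <;> simp [Matrix.mul_apply, Fin.sum_univ_two, pow_succ]
    rw [this, ← pow_mul, mul_comm, pow_mul, hl, one_pow]
    ext a b; fin_cases a <;> fin_cases b <;> simp
  rw [conjM_apply] at e1
  rw [← map_pow]
  calc r ((t : GQ) ^ e₀ p) = Z * ((↑Z⁻¹ : M2 k) * r ((t : GQ) ^ e₀ p) * Z) * (↑Z⁻¹ : M2 k) := by
        simp only [mul_assoc, Units.mul_inv_cancel_left, Units.mul_inv, mul_one]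
    _ = 1 := by rw [e1, mul_one, Units.mul_inv]

end Fermat.Agent.CFT.Tangent
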