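import Fermat.Agent.CFT.Tangent.FlatOrder
import Fermat.Agent.CFT.Tangent.FlatNormal
import Fermat.Agent.Arith.RootsOfUnity

/-!
Flat tangent classes satisfy the local bound at `p`.
-/

set_option autoImplicit false
set_option linter.style.haveILetI false
set_option linter.unusedSectionVars false

noncomputable section

namespace Fermat.Agent.CFT.Tangent

open Fermat.Agent.Deform Fermat.Agent.Arith Fermat.Agent.CFT.Flat Module

variable {p : ℕ} [hp : Fact p.Prime] {k : Type} [Field k] [Finite k] [Algebra (ZMod p) k]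
variable {r : GQ →* M2 k} {c c₀ : GQ → M2 k}

/-- A coboundary on the decomposition group. -/
def IsCobdClass (p : ℕ) [Fact p.Prime] (r : GQ →* M2 k) (c : GQ → M2 k) : Prop :=
  ∃ X : M2 k, X.trace = 0 ∧ (∀ g ∈ decG p, c g = r g * X * r g⁻¹ - X) ∧ ∀ g, g ∉ decG p → c g = 0

/-- A class coming from a flat deformation, or a coboundary. -/
def IsFlatClass (p : ℕ) [Fact p.Prime] (r : GQ →* M2 k) (c : GQ → M2 k) : Prop :=
  IsFlatLift p r c ∨ IsCobdClass p r c

theorem IsCobdClass.isLocalClass (h₀ : IsFlatLift p r c₀) (h : IsCobdClass p r c) :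
    IsLocalClass p r c := by
  obtain ⟨X, hX, hc, hoff⟩ := h
  obtain ⟨H, h1, h2, h3, h4⟩ := h₀.exists_bdd
  obtain ⟨L, hL1, hL2, hL3⟩ := h₀.exists_level
  have hz : ∀ g ∈ decG p, r g = 1 → c g = 0 := fun g hg h1 => by
    have h2 := map_inv_mul r g
    rw [h1, mul_one] at h2
    rw [hc g hg, h1, h2, one_mul, mul_one, sub_self]
  refine ⟨fun g hg g' hg' => ?_, fun g => ?_, hoff,
    ⟨H, h1, h2, h3, fun g hg => hz g (mem_decG_of_mem_tame (h2 hg)) (h4 g hg).1⟩,
    ⟨L, hL1, hL2, fun g hg hgD => hz g hgD (hL3 g hg hgD).1⟩⟩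
  · rw [hc _ ((decG p).mul_mem hg hg'), hc g hg, hc g' hg', mul_inv_rev, map_mul, map_mul,
      mul_sub, sub_mul]
    simp only [mul_assoc]
    abel
  · by_cases hg : g ∈ decG p
    · rw [hc g hg, Matrix.trace_sub, trace_conj_map, sub_self]
    · rw [hoff g hg, Matrix.trace_zero]

theorem IsFlatClass.isLocalClass (h₀ : IsFlatLift p r c₀) (h : IsFlatClass p r c) :
    IsLocalClass p r c :=
  h.elim (fun h => h.isLocalClass) fun h => h.isLocalClass h₀

/-! ### Changes of basis -/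

/-- A basis realising a conjugate matrix representation. -/
theorem exists_basis_conj {A : Type} [CommRing A] [IsLocalRing A] (ρ : GaloisRepAdic A)
    (B : Basis (Fin 2) A ρ.V) (Q : (M2 A)ˣ) :
    ∃ B' : Basis (Fin 2) A ρ.V, ∀ g, matOf ρ B' g = (↑Q⁻¹ : M2 A) * matOf ρ B g * Q := by
  let u : (Module.End A ρ.V)ˣ := Units.map (LinearMap.toMatrixAlgEquiv B).symm.toMonoidHom Q
  refine ⟨B.map (LinearMap.GeneralLinearGroup.generalLinearEquiv A ρ.V u), fun g => ?_⟩
  have e : LinearMap.toMatrixAlgEquiv B ((↑u⁻¹ : Module.End A ρ.V) * ρ.ρ g * u) =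
      (↑Q⁻¹ : M2 A) * matOf ρ B g * Q := by
    rw [map_mul, map_mul]
    congr 1
    · congr 1
      exact (LinearMap.toMatrixAlgEquiv B).apply_symm_apply _
    · exact (LinearMap.toMatrixAlgEquiv B).apply_symm_apply _
  rw [← e]
  ext i j
  rw [matOf_apply, LinearMap.toMatrixAlgEquiv_apply]
  rfl

omit hp [Finite k] [Algebra (ZMod p) k] in
theorem inlM_mul (M N : M2 k) : inlM (M * N) = inlM M * inlM N := dualM_ext (by simp) (by simp)

omit hp [Finite k] [Algebra (ZMod p) k] in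
theorem inlM_one : inlM (1 : M2 k) = 1 := dualM_ext (by simp) (by simp)

theorem IsFlatLift.conj (Z : (M2 k)ˣ) (h : IsFlatLift p r c) :
    IsFlatLift p (conjM Z r) (fun g => (↑Z⁻¹ : M2 k) * c g * Z) := by
  obtain ⟨ρ, B, hflat, hB⟩ := h.lift
  let Q : (M2 (DualNumber k))ˣ := ⟨inlM Z, inlM (↑Z⁻¹ : M2 k),
    by rw [← inlM_mul, Units.mul_inv, inlM_one], by rw [← inlM_mul, Units.inv_mul, inlM_one]⟩
  obtain ⟨B', hB'⟩ := exists_basis_conj ρ B Q
  refine ⟨fun g hg => by rw [h.off g hg, mul_zero, zero_mul], fun g => ?_,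
    ρ, B', hflat, fun g hg => ?_⟩
  · rw [Matrix.trace_mul_comm, Units.mul_inv_cancel_left, h.trace]
  · rw [hB', hB g hg]
    refine dualM_ext ?_ ?_
    · simp [Q, conjM_apply]
    · simp [Q, conjM_apply, mul_assoc]

theorem IsFlatClass.conj (Z : (M2 k)ˣ) (h : IsFlatClass p r c) :
    IsFlatClass p (conjM Z r) (fun g => (↑Z⁻¹ : M2 k) * c g * Z) := by
  refine h.imp (fun h => h.conj Z) fun ⟨X, hX, hc, hoff⟩ => ⟨(↑Z⁻¹ : M2 k) * X * Z, ?_,
    fun g hg => ?_, fun g hg => by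
      show (↑Z⁻¹ : M2 k) * c g * (Z : M2 k) = 0
      rw [hoff g hg, mul_zero, zero_mul]⟩
  · rw [Matrix.trace_mul_comm, Units.mul_inv_cancel_left, hX]
  · show (↑Z⁻¹ : M2 k) * c g * (Z : M2 k) = _
    rw [hc g hg, conjM_apply, conjM_apply]
    simp only [mul_sub, sub_mul, mul_assoc, Units.mul_inv_cancel_left]

/-- Moving a flat class by a coboundary. -/
theorem exists_flatLift_add {ρ : GaloisRepAdic (DualNumber k)}
    {B : Basis (Fin 2) (DualNumber k) ρ.V} {b : GQ → M2 k}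
    (hflat : ρ.IsFlatAt p) (hB : ∀ g, matOf ρ B g = (1 + epsM (b g)) * inlM (r g))
    (htr : ∀ g, (b g).trace = 0) (X : M2 k)
    (hc : ∀ g ∈ decG p, c g = b g + (r g * X * r g⁻¹ - X))
    (hoff : ∀ g, g ∉ decG p → c g = 0) : IsFlatLift p r c := by
  let Q : (M2 (DualNumber k))ˣ :=
    ⟨1 + epsM X, 1 - epsM X, dualM_ext (by simp) (by simp), dualM_ext (by simp) (by simp)⟩
  obtain ⟨B', hB'⟩ := exists_basis_conj ρ B Q
  refine ⟨hoff, fun g => ?_, ρ, B', hflat, fun g hg => ?_⟩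
  · by_cases hg : g ∈ decG p
    · rw [hc g hg, Matrix.trace_add, htr, Matrix.trace_sub, trace_conj_map, sub_self, add_zero]
    · rw [hoff g hg, Matrix.trace_zero]
  · rw [hB', hB g]
    refine dualM_ext ?_ ?_
    · simp [Q]
    · simp only [Q, Units.inv_mk, Units.val_mk, sndM_mul, fstM_mul, sndM_add, fstM_add, sndM_sub,
        fstM_sub, sndM_one, fstM_one, sndM_epsM, fstM_epsM, sndM_inlM, fstM_inlM, add_zero,
        sub_zero, zero_add, zero_sub, one_mul, mul_one, mul_zero]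
      rw [hc g hg, add_mul, sub_mul, mul_assoc (r g * X), map_inv_mul, mul_one, neg_mul]
      abel

/-! ### The count -/

variable {τ : GQ} {ι : k →+* Res p}

theorem det_ne_one (hp2 : p ≠ 2)
    (hcyc : ∀ (σ : GQ) (n : ℕ), (∀ μ : QBar, μ ^ p = 1 → σ μ = μ ^ n) → (r σ).det = (n : k))
    (hτ : τ ∈ inG p) (hτprim : IsPrimitiveRoot (theta p τ) (e₀ p)) (ι : k →+* Res p) :
    (r τ).det ≠ 1 := fun h1 => by
  have ha₀ := iota_det hcyc ι hτ
  rw [h1, map_one] at ha₀
  have h3 := Nat.le_of_dvd (Nat.succ_pos p)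
    ((isPrimitiveRoot_thetaBar p hτprim).dvd_of_pow_eq_one _ ha₀.symm)
  rw [e₀_eq] at h3
  have : 2 ≤ p - 1 := by have := hp.out.two_le; omega
  have := Nat.mul_le_mul_left (p + 1) this
  omega

/-- A diagonal entry trivial at the generator is trivial on inertia. -/
theorem diag_eq_one (h₀ : IsFlatLift p r c₀) (hup : ∀ g ∈ decG p, r g 1 0 = 0)
    (hgen : ∀ g ∈ inG p, ∃ i : ℕ, (τ ^ i)⁻¹ * g ∈ tame p) (hτ : τ ∈ inG p) (j : Fin 2)
    (hj : r τ j j = 1) : ∀ g ∈ inG p, r g j j = 1 := by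
  obtain ⟨L, hLf, hLn, hL⟩ := h₀.exists_level
  haveI := hLf
  haveI := hLn
  have hmul : ∀ g ∈ decG p, ∀ g' ∈ decG p, r (g * g') j j = r g j j * r g' j j := by
    intro g hg g' hg'
    fin_cases j <;> simp [Matrix.mul_apply, Fin.sum_univ_two, hup g hg, hup g' hg']
  have h1 : r 1 j j = 1 := by rw [map_one, Matrix.one_apply_eq]
  have ht := (char_tame (p := p) (χ := fun g => r g j j) hmul h1 L fun g hg hgD => by
    show r g j j = 1
    rw [(hL g hg hgD).1, Matrix.one_apply_eq]).1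
  intro g hg
  obtain ⟨i, hi⟩ := hgen g hg
  have hτD := inG_le_decG p hτ
  have hpow : ∀ i : ℕ, r (τ ^ i) j j = 1 := fun i => by
    induction i with
    | zero => rw [pow_zero]; exact h1
    | succ i ih => rw [pow_succ, hmul _ ((decG p).pow_mem hτD i) τ hτD, ih, hj, one_mul]
  rw [show g = τ ^ i * ((τ ^ i)⁻¹ * g) by group,
    hmul _ ((decG p).pow_mem hτD i) _ (mem_decG_of_mem_tame hi), hpow, ht _ hi, one_mul]

theorem natCard_le_borel_aux (hp2 : p ≠ 2) (hr : GaloisFactorsThroughFiniteLevel r)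
    (hcyc : ∀ (σ : GQ) (n : ℕ), (∀ μ : QBar, μ ^ p = 1 → σ μ = μ ^ n) → (r σ).det = (n : k))
    (hup : ∀ g ∈ decG p, r g 1 0 = 0) (T : AddSubgroup (GQ → M2 k)) [Finite T]
    (h₀ : IsFlatLift p r c₀) (hT : ∀ c ∈ T, IsFlatClass p r c)
    (ι : k →+* Res p) (hτ : τ ∈ inG p) (hτprim : IsPrimitiveRoot (theta p τ) (e₀ p))
    (hgen : ∀ g ∈ inG p, ∃ i : ℕ, (τ ^ i)⁻¹ * g ∈ tame p)
    (hψ : r τ 0 0 / r τ 1 1 = (r τ).det → r τ 1 1 / r τ 0 0 = (r τ).det → r τ 1 1 = 1) :
    Nat.card T ≤ Nat.card k ^ 4 := by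
  refine natCard_le_borel hp2 hr hcyc hup T (fun c hc => (hT c hc).isLocalClass h₀) ι hτ hτprim hgen
    fun h1 h2 => ?_
  have h11 := hψ h1 h2
  have hI := diag_eq_one h₀ hup hgen hτ 1 h11
  have hτD := inG_le_decG p hτ
  have ha : r τ 0 0 ≠ 1 := fun h00 => det_ne_one hp2 hcyc hτ hτprim ι (by
    rw [Matrix.det_fin_two, h00, h11, hup τ hτD]; ring)
  intro c hc
  rcases hT c hc with h | ⟨X, hX, hcX, -⟩
  · exact h.exists_spec hp2 hup hI hτ ha
  · refine ⟨-X 1 0, fun g hg => ?_⟩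
    have e : r g * X * r g⁻¹ * r g = r g * X := by rw [mul_assoc, map_inv_mul, mul_one]
    have e10 := congrFun (congrFun e 1) 0
    rw [Matrix.mul_apply, Fin.sum_univ_two, Matrix.mul_apply (M := r g), Fin.sum_univ_two,
      hup g hg] at e10
    have hne : r g 0 0 ≠ 0 := fun h0 => det_map_ne_zero r g (by
      rw [Matrix.det_fin_two, h0, hup g hg]; ring)
    rw [hcX g hg, Matrix.sub_apply]
    field_simp
    linear_combination e10

theorem natCard_le_borel_flat (hp2 : p ≠ 2) (hr : GaloisFactorsThroughFiniteLevel r)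
    (hcyc : ∀ (σ : GQ) (n : ℕ), (∀ μ : QBar, μ ^ p = 1 → σ μ = μ ^ n) → (r σ).det = (n : k))
    (hup : ∀ g ∈ decG p, r g 1 0 = 0) (T : AddSubgroup (GQ → M2 k)) [Finite T]
    (h₀ : IsFlatLift p r c₀) (hT : ∀ c ∈ T, IsFlatClass p r c)
    (ι : k →+* Res p) (hτ : τ ∈ inG p) (hτprim : IsPrimitiveRoot (theta p τ) (e₀ p))
    (hgen : ∀ g ∈ inG p, ∃ i : ℕ, (τ ^ i)⁻¹ * g ∈ tame p) :
    Nat.card T ≤ Nat.card k ^ 4 := by
  by_cases hψ : r τ 0 0 / r τ 1 1 = (r τ).det → r τ 1 1 / r τ 0 0 = (r τ).det → r τ 1 1 = 1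
  · exact natCard_le_borel_aux hp2 hr hcyc hup T h₀ hT ι hτ hτprim hgen hψ
  simp only [Classical.not_imp] at hψ
  obtain ⟨e1, e2, h11⟩ := hψ
  have hτD := inG_le_decG p hτ
  have hd : (r τ).det = r τ 0 0 * r τ 1 1 := by
    rw [Matrix.det_fin_two, hup τ hτD, mul_zero, sub_zero]
  have hne : r τ 0 0 ≠ 0 ∧ r τ 1 1 ≠ 0 :=
    mul_ne_zero_iff.mp (hd ▸ det_map_ne_zero r τ)
  rw [hd, div_eq_iff hne.2] at e1
  rw [hd, div_eq_iff hne.1] at e2
  have q2 : r τ 1 1 * r τ 1 1 = 1 := mul_left_cancel₀ hne.1 (by linear_combination -e1)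
  have q1 : r τ 0 0 * r τ 0 0 = 1 := mul_left_cancel₀ hne.2 (by linear_combination -e2)
  have hm : r τ 1 1 = -1 := (mul_self_eq_one_iff.mp q2).resolve_left h11
  have h00 : r τ 0 0 = 1 := (mul_self_eq_one_iff.mp q1).resolve_right fun h =>
    det_ne_one hp2 hcyc hτ hτprim ι (by rw [hd, h, hm]; ring)
  obtain ⟨x, hx⟩ := h₀.exists_eigen hp2 hup (diag_eq_one h₀ hup hgen hτ 0 h00) hτ h11
  let Z : (M2 k)ˣ := ⟨!![x, 1; 1, 0], !![0, 1; 1, -x],
    by ext i j; fin_cases i <;> fin_cases j <;> simp [Matrix.mul_apply, Fin.sum_univ_two],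
    by ext i j; fin_cases i <;> fin_cases j <;> simp [Matrix.mul_apply, Fin.sum_univ_two]⟩
  have hconj : ∀ g ∈ decG p, conjM Z r g = !![r g 1 1, 0; 0, r g 0 0] := fun g hg => by
    rw [conjM_apply]
    ext i j
    fin_cases i <;> fin_cases j <;>
      simp [Z, Matrix.mul_apply, Fin.sum_univ_two, Matrix.vecMul, dotProduct, hup g hg] <;>
      first
        | ring1
        | linear_combination hx g hg
        | linear_combination -(hx g hg)
  let f : (GQ → M2 k) →+ (GQ → M2 k) := AddMonoidHom.mk'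
    (fun c g => (↑Z⁻¹ : M2 k) * c g * Z) fun c c' => funext fun g => by
      simp only [Pi.add_apply, mul_add, add_mul]
  have hf : Function.Injective f := fun c c' h => funext fun g =>
    (Units.mul_right_inj Z⁻¹).mp ((Units.mul_left_inj Z).mp (congrFun h g))
  haveI : Finite (T.map f) :=
    Finite.of_surjective _ (AddMonoidHom.addSubgroupMap_surjective f T)
  rw [Nat.card_congr (T.equivMapOfInjective f hf).toEquiv]
  refine natCard_le_borel_aux (r := conjM Z r) (c₀ := f c₀) hp2 ?_ (fun σ n h => ?_)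
    (fun g hg => by simp [hconj g hg]) (T.map f) (h₀.conj Z) ?_ ι hτ hτprim hgen
    fun _ _ => by simp [hconj τ hτD, h00]
  · obtain ⟨L, hL, h⟩ := hr
    exact ⟨L, hL, fun σ hσ => by rw [conjM_apply, h σ hσ, mul_one, Units.inv_mul]⟩
  · rw [conjM_apply, Matrix.det_units_conj' Z (r σ), hcyc σ n h]
  · rintro _ ⟨c, hc, rfl⟩
    exact (hT c hc).conj Z

theorem natCard_le_flat (hp2 : p ≠ 2) (hr : GaloisFactorsThroughFiniteLevel r)
    (hcyc : ∀ (σ : GQ) (n : ℕ), (∀ μ : QBar, μ ^ p = 1 → σ μ = μ ^ n) → (r σ).det = (n : k))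
    (hsplit : ∀ g, ∃ α β : k, (r g).trace = α + β ∧ (r g).det = α * β)
    (T : AddSubgroup (GQ → M2 k)) [Finite T]
    (h₀ : IsFlatLift p r c₀) (hT : ∀ c ∈ T, IsFlatClass p r c) :
    Nat.card T ≤ Nat.card k ^ 4 := by
  haveI : IsAlgClosed (Res p) := residueField_isAlgClosed (padicPlace p)
  letI : Algebra (ZMod p) (Res p) := ZMod.algebra _ p
  haveI : FiniteDimensional (ZMod p) k := Module.Finite.of_finite
  let ι : k →+* Res p := (IsAlgClosed.lift : k →ₐ[ZMod p] Res p).toRingHom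
  obtain ⟨τ, hτ, hτprim, hgen⟩ := exists_tame_generator p
  obtain ⟨Z, hZ⟩ : ∃ Z : (M2 k)ˣ, (∀ g ∈ decG p, conjM Z r g 1 0 = 0) ∨
      ((∀ g ∈ tame p, r g = 1) ∧ ∃ l : k, l ^ e₀ p = 1 ∧ conjM Z r τ = !![l, 0; 0, l ^ p]) := by
    rcases exists_line_or_torus (p := p) hr hsplit with ⟨v, hv, hline⟩ | ⟨ht, hdiag⟩
    · obtain ⟨Z, hZ0, hZ1⟩ : ∃ Z : (M2 k)ˣ, (Z : M2 k) 0 0 = v 0 ∧ (Z : M2 k) 1 0 = v 1 := by
        by_cases h0 : v 0 = 0
        · have h1 : v 1 ≠ 0 := fun h1 => hv (by ext i; fin_cases i <;> simp [h0, h1])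
          refine ⟨Matrix.nonsingInvUnit !![v 0, 1; v 1, 0] (isUnit_iff_ne_zero.mpr ?_), rfl, rfl⟩
          simpa [Matrix.det_fin_two] using h1
        · refine ⟨Matrix.nonsingInvUnit !![v 0, 0; v 1, 1] (isUnit_iff_ne_zero.mpr ?_), rfl, rfl⟩
          simpa [Matrix.det_fin_two] using h0
      refine ⟨Z, Or.inl fun g hg => ?_⟩
      obtain ⟨a, ha⟩ := hline g hg
      have e : ∀ i, (r g * (Z : M2 k)) i 0 = a * (Z : M2 k) i 0 := fun i => by
        have := congrFun ha i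
        simp only [Matrix.mulVec, dotProduct, Fin.sum_univ_two, Pi.smul_apply, smul_eq_mul] at this
        rw [Matrix.mul_apply, Fin.sum_univ_two, hZ0, hZ1, this]
        fin_cases i <;> simp [hZ0, hZ1]
      have e2 : ((↑Z⁻¹ : M2 k) * (Z : M2 k)) 1 0 = 0 := by simp
      rw [Matrix.mul_apply, Fin.sum_univ_two] at e2
      rw [conjM_apply, mul_assoc, Matrix.mul_apply, Fin.sum_univ_two, e, e]
      linear_combination a * e2
    · obtain ⟨Z, l, hl, hd⟩ := hdiag τ hτ
      exact ⟨Z, Or.inr ⟨ht, l, hl, hd⟩⟩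
  let f : (GQ → M2 k) →+ (GQ → M2 k) := AddMonoidHom.mk'
    (fun c g => (↑Z⁻¹ : M2 k) * c g * Z) fun c c' => funext fun g => by
      simp only [Pi.add_apply, mul_add, add_mul]
  have hf : Function.Injective f := fun c c' h => funext fun g =>
    (Units.mul_right_inj Z⁻¹).mp ((Units.mul_left_inj Z).mp (congrFun h g))
  haveI : Finite (T.map f) :=
    Finite.of_surjective _ (AddMonoidHom.addSubgroupMap_surjective f T)
  have hcyc' : ∀ (σ : GQ) (n : ℕ), (∀ μ : QBar, μ ^ p = 1 → σ μ = μ ^ n) →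
      (conjM Z r σ).det = (n : k) := fun σ n h => by
    rw [conjM_apply, Matrix.det_units_conj' Z (r σ), hcyc σ n h]
  have h₀' : IsFlatLift p (conjM Z r) (f c₀) := h₀.conj Z
  have hT' : ∀ c ∈ T.map f, IsFlatClass p (conjM Z r) c := by
    rintro _ ⟨c, hc, rfl⟩
    exact (hT c hc).conj Z
  rw [Nat.card_congr (T.equivMapOfInjective f hf).toEquiv]
  rcases hZ with hup | ⟨htame, l, hl, hd⟩
  · refine natCard_le_borel_flat hp2 ?_ hcyc' hup (T.map f) h₀' hT' ι hτ hτprim hgen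
    obtain ⟨L, hL, h⟩ := hr
    exact ⟨L, hL, fun σ hσ => by rw [conjM_apply, h σ hσ, mul_one, Units.inv_mul]⟩
  · exact natCard_le_torus hp2 hcyc' (T.map f) (fun c hc => (hT' c hc).isLocalClass h₀') ι hτ hτprim
      hgen (fun g hg => by rw [conjM_apply, htame g hg, mul_one, Units.inv_mul]) hl hd

/-! ### The bound -/

omit [Finite k] [Algebra (ZMod p) k] in
theorem finrank_ker_trace : finrank k (LinearMap.ker (Matrix.traceLinearMap (Fin 2) k k)) = 3 := by
  have h := LinearMap.finrank_range_add_finrank_ker (Matrix.traceLinearMap (Fin 2) k k)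
  have hs : LinearMap.range (Matrix.traceLinearMap (Fin 2) k k) = ⊤ :=
    LinearMap.range_eq_top.mpr fun x => ⟨!![x, 0; 0, 0], by simp [Matrix.trace_fin_two]⟩
  rw [hs, finrank_top, Module.finrank_self, Module.finrank_matrix, Fintype.card_fin,
    Module.finrank_self] at h
  omega

/-- The bound at `p` for flat classes. -/
theorem finrank_le_flat {p : ℕ} [Fact p.Prime] {k : Type} [Field k] [Finite k] [CharP k p]
    {r : Gal →* M2 k} (hp2 : p ≠ 2)
    (hr : GaloisFactorsThroughFiniteLevel r)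
    (hcyc : ∀ (σ : Gal) (n : ℕ), (∀ μ : QBar, μ ^ p = 1 → σ μ = μ ^ n) → (r σ).det = (n : k))
    (hsplit : ∀ g, ∃ α β : k, (r g).trace = α + β ∧ (r g).det = α * β)
    (V : Submodule k (Gal → M2 k)) [Module.Finite k V]
    (hb : ∀ b ∈ V, b ≠ 0 → ∃ (ρ : GaloisRepAdic (DualNumber k))
      (B : Basis (Fin 2) (DualNumber k) ρ.V), ρ.IsFlatAt p ∧ ρ.DetIsCyclotomic p ∧
        ∀ σ, matOf ρ B σ = (1 + epsM (b σ)) * inlM (r σ)) :
    finrank k V ≤ finrank k (V ⊓ cobdOn r ((padicPlace p).decompositionSubgroup ℚ) :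
        Submodule k (Gal → M2 k)) +
      finrank k (fixedOn r ((padicPlace p).decompositionSubgroup ℚ)) + 1 := by
  classical
  letI : Algebra (ZMod p) k := ZMod.algebra k p
  rcases eq_or_ne V ⊥ with rfl | hV
  · simp [finrank_bot]
  set D := (padicPlace p).decompositionSubgroup ℚ
  let res : (Gal → M2 k) →ₗ[k] (Gal → M2 k) :=
    { toFun := fun c g => if g ∈ D then c g else 0
      map_add' := fun c c' => funext fun g => by
        simp only [Pi.add_apply]; split_ifs <;> simp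
      map_smul' := fun a c => funext fun g => by
        simp only [Pi.smul_apply, RingHom.id_apply]; split_ifs <;> simp }
  have hres : ∀ c : Gal → M2 k, (∀ g ∈ D, res c g = c g) ∧ ∀ g, g ∉ D → res c g = 0 :=
    fun c => ⟨fun g hg => if_pos hg, fun g hg => if_neg hg⟩
  set sl := LinearMap.ker (Matrix.traceLinearMap (Fin 2) k k)
  let cd : sl →ₗ[k] (Gal → M2 k) := res.comp ((cobdLin r).comp sl.subtype)
  set C₀ := LinearMap.range cd
  set T := V.map res ⊔ C₀
  obtain ⟨b₀, hb₀, hb₀ne⟩ := Submodule.exists_mem_ne_zero_of_ne_bot hV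
  obtain ⟨ρ₀, B₀, hf₀, hd₀, hm₀⟩ := hb b₀ hb₀ hb₀ne
  have h₀ : IsFlatLift p r (res b₀) := exists_flatLift_add hf₀ hm₀
    (trace_eq_zero_of_det p hd₀ hm₀) 0 (fun g hg => by simp [(hres b₀).1 g hg]) (hres b₀).2
  have hT : ∀ c ∈ T, IsFlatClass p r c := by
    intro c hc
    obtain ⟨_, ⟨b, hbV, rfl⟩, _, ⟨⟨X, hX⟩, rfl⟩, rfl⟩ := Submodule.mem_sup.mp hc
    have hin : ∀ g ∈ D, (res b + cd ⟨X, hX⟩) g = b g + (r g * X * r g⁻¹ - X) := fun g hg => by
      show res b g + res (cobdLin r X) g = _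
      rw [(hres b).1 g hg, (hres _).1 g hg]
      rfl
    have hout : ∀ g, g ∉ D → (res b + cd ⟨X, hX⟩) g = 0 := fun g hg => by
      show res b g + res (cobdLin r X) g = _
      rw [(hres b).2 g hg, (hres _).2 g hg, add_zero]
    rcases eq_or_ne b 0 with rfl | hbne
    · exact Or.inr ⟨X, hX, fun g hg => by rw [hin g hg, Pi.zero_apply, zero_add], hout⟩
    · obtain ⟨ρ, B, hf, hd, hm⟩ := hb b hbV hbne
      exact Or.inl (exists_flatLift_add hf hm (trace_eq_zero_of_det p hd hm) X hin hout)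
  haveI : Finite T := Module.finite_of_finite k
  haveI : Finite T.toAddSubgroup := ‹Finite T›
  have hcard : Nat.card T ≤ Nat.card k ^ 4 := natCard_le_flat hp2 hr hcyc hsplit T.toAddSubgroup h₀ hT
  rw [Module.natCard_eq_pow_finrank (K := k)] at hcard
  have hT4 : finrank k T ≤ 4 := (Nat.pow_le_pow_iff_right Finite.one_lt_card).mp hcard
  -- the coboundaries
  have hC : finrank k C₀ + finrank k (fixedOn r D) = 3 := by
    have h1 := LinearMap.finrank_range_add_finrank_ker cd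
    have hker : (LinearMap.ker cd).map sl.subtype = fixedOn r D := by
      ext X
      constructor
      · rintro ⟨⟨Y, hY⟩, hY0, rfl⟩
        refine ⟨hY, fun s hs => sub_eq_zero.mp ?_⟩
        have := congrFun hY0 s
        rw [show cd ⟨Y, hY⟩ s = res (cobdLin r Y) s from rfl, (hres _).1 s hs] at this
        exact this
      · rintro ⟨hX, hX'⟩
        refine ⟨⟨X, hX⟩, ?_, rfl⟩
        refine funext fun s => ?_
        show res (cobdLin r X) s = 0
        by_cases hs : s ∈ D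
        · rw [(hres _).1 s hs, cobdLin_apply, hX' s hs, sub_self]
        · exact (hres _).2 s hs
    rw [finrank_ker_trace, (Submodule.equivSubtypeMap sl (LinearMap.ker cd)).finrank_eq.trans
      (LinearEquiv.ofEq _ _ hker).finrank_eq] at h1
    exact h1
  -- the comparison
  let π := C₀.mkQ.comp res
  have h1 := LinearMap.finrank_range_add_finrank_ker (π.comp V.subtype)
  have hkerπ : LinearMap.ker π = cobdOn r D := by
    ext b
    rw [LinearMap.mem_ker, LinearMap.comp_apply, Submodule.mkQ_apply, Submodule.Quotient.mk_eq_zero]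
    constructor
    · rintro ⟨⟨X, hX⟩, e⟩
      refine ⟨X, hX, fun s hs => ?_⟩
      have := congrFun e s
      rw [show cd ⟨X, hX⟩ s = res (cobdLin r X) s from rfl, (hres _).1 s hs, (hres _).1 s hs] at this
      exact this.symm
    · rintro ⟨X, hX, e⟩
      refine ⟨⟨X, hX⟩, funext fun s => ?_⟩
      show res (cobdLin r X) s = res b s
      by_cases hs : s ∈ D
      · rw [(hres _).1 s hs, (hres _).1 s hs, e s hs]; rfl
      · rw [(hres _).2 s hs, (hres _).2 s hs]
  have h2 : finrank k (LinearMap.ker (π.comp V.subtype)) =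
      finrank k (V ⊓ cobdOn r D : Submodule k (Gal → M2 k)) := by
    rw [LinearMap.ker_comp, hkerπ]
    exact ((Submodule.equivSubtypeMap V _).trans
      (LinearEquiv.ofEq _ _ (Submodule.map_comap_subtype V _))).finrank_eq
  have h3 : LinearMap.range (π.comp V.subtype) ≤ T.map C₀.mkQ := by
    rintro _ ⟨⟨b, hb'⟩, rfl⟩
    exact ⟨res b, Submodule.mem_sup_left ⟨b, hb', rfl⟩, rfl⟩
  have h4 := Submodule.finrank_mono h3
  have h5 := LinearMap.finrank_range_add_finrank_ker (C₀.mkQ.comp T.subtype)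
  have h6 : finrank k (LinearMap.ker (C₀.mkQ.comp T.subtype)) = finrank k C₀ := by
    rw [LinearMap.ker_comp, Submodule.ker_mkQ]
    exact (Submodule.comapSubtypeEquivOfLe le_sup_right).finrank_eq
  rw [LinearMap.range_comp, Submodule.range_subtype, h6] at h5
  omega

end Fermat.Agent.CFT.Tangent
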