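import Fermat.Agent.CFT.Flat.Local
import Fermat.Agent.CFT.Flat.Coset
import Fermat.Agent.CFT.Tangent.LocalBasic
import Fermat.Agent.RT.Glue.FlatDescent

/-!
First order deformations flat at `p`: the ramification bound, and the lines cut out by the
connected part.
-/

set_option autoImplicit false
set_option linter.style.haveILetI false
set_option linter.unusedSectionVars false

noncomputable section

namespace Fermat.Agent.CFT.Tangent

open Fermat.Agent.Deform Fermat.Agent.Arith Fermat.Agent.CFT.Flat Module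
open Fermat.Agent.FiniteFlat (GalOrder)

section Rep

variable {A : Type} [CommRing A] [IsLocalRing A]

/-- The action of the Galois group on the space of a representation. -/
@[reducible] def repAction (ρ : GaloisRepAdic A) : DistribMulAction GQ ρ.V where
  smul σ v := ρ.ρ σ v
  one_smul v := by show ρ.ρ 1 v = v; rw [map_one, Module.End.one_apply]
  mul_smul σ τ v := by show ρ.ρ (σ * τ) v = _; rw [map_mul, Module.End.mul_apply]; rfl
  smul_zero σ := map_zero (ρ.ρ σ)
  smul_add σ v w := map_add (ρ.ρ σ) v w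

/-- A flat representation over a finite ring has a Galois order. -/
theorem nonempty_galOrder_of_isFlatAt [Finite A] {p : ℕ} (ρ : GaloisRepAdic A)
    (h : ρ.IsFlatAt p) :
    letI := repAction ρ
    Nonempty (GalOrder p ρ.V) := by
  letI := repAction ρ
  haveI : Finite (A ⧸ (⊥ : Ideal A)) := Finite.of_surjective _ Ideal.Quotient.mk_surjective
  obtain ⟨H, _, _, hfin, -, -, e, he, heσ⟩ := h.2 ⊥ inferInstance
  haveI := hfin
  letI := EC.Rep.levelDistribMulAction ρ ⊥
  obtain ⟨O⟩ := RT.Glue.nonempty_galOrder_of_hopf e he heσ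
  refine ⟨O.restrict ((⊥ : Ideal A) • (⊤ : Submodule A ρ.V)).mkQ.toAddMonoidHom ?_ fun σ v => rfl⟩
  refine LinearMap.ker_eq_bot.mp ?_
  rw [Submodule.ker_mkQ, Submodule.bot_smul]

/-- The connected part is stable under maps commuting with inertia. -/
theorem map_mem_conn {p : ℕ} [Fact p.Prime] {M : Type} [AddCommGroup M] [Fintype M]
    [DistribMulAction GQ M] (O : GalOrder p M) (hp2 : p ≠ 2) (hkill : ∀ m : M, p • m = 0)
    (f : M →+ M) (hf : ∀ σ ∈ inG p, ∀ m, f (σ • m) = σ • f m) {m : M} (hm : m ∈ conn O) :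
    f m ∈ conn O := by
  have h := mem_of_fixed_coset O hp2 hkill (conn O ⊓ (conn O).comap f) (fun σ hσ l hl => ?_) hm
    fun σ hσ => ⟨smul_sub_mem_conn hσ m, ?_⟩
  · exact h.2
  · refine ⟨smul_mem_conn (inG_le_decG p hσ) hl.1, ?_⟩
    show f (σ • l) ∈ conn O
    rw [hf σ hσ]
    exact smul_mem_conn (inG_le_decG p hσ) hl.2
  · show f (σ • m - m) ∈ conn O
    rw [map_sub, hf σ hσ]
    exact smul_sub_mem_conn hσ _

end Rep

variable {p : ℕ} [hp : Fact p.Prime] {k : Type} [Field k] [Finite k] [Algebra (ZMod p) k]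
variable {r : GQ →* M2 k} {c : GQ → M2 k}

/-- A class on the decomposition group given by a first order deformation flat at `p`. -/
structure IsFlatLift (p : ℕ) [Fact p.Prime] (r : GQ →* M2 k) (c : GQ → M2 k) : Prop where
  off : ∀ g, g ∉ decG p → c g = 0
  trace : ∀ g, (c g).trace = 0
  lift : ∃ (ρ : GaloisRepAdic (DualNumber k)) (B : Basis (Fin 2) (DualNumber k) ρ.V),
    ρ.IsFlatAt p ∧ ∀ g ∈ decG p, matOf ρ B g = (1 + epsM (c g)) * inlM (r g)

omit [Finite k] [Algebra (ZMod p) k] in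
theorem fstM_lift (c X : M2 k) : fstM ((1 + epsM c) * inlM X) = X := by simp

omit [Finite k] [Algebra (ZMod p) k] in
theorem sndM_lift (c X : M2 k) : sndM ((1 + epsM c) * inlM X) = c * X := by simp

omit [Finite k] [Algebra (ZMod p) k] in
theorem lift_entry (c X : M2 k) (i j : Fin 2) :
    ((1 + epsM c) * inlM X) i j =
      TrivSqZeroExt.inl (X i j) + TrivSqZeroExt.inr ((c * X) i j) :=
  TrivSqZeroExt.ext (by simpa using congrFun (congrFun (fstM_lift c X) i) j)
    (by simpa using congrFun (congrFun (sndM_lift c X) i) j)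

theorem finite_dualNumber : Finite (DualNumber k) :=
  Finite.of_injective (fun x : DualNumber k => (x.fst, x.snd)) fun _ _ h =>
    TrivSqZeroExt.ext (congrArg Prod.fst h) (congrArg Prod.snd h)

include hp in
theorem nsmul_eq_zero_dual {M : Type} [AddCommGroup M] [Module (DualNumber k) M] (m : M) :
    p • m = 0 := by
  haveI : CharP k p := charP_of_algebra
  rw [← Nat.cast_smul_eq_nsmul (DualNumber k), ← TrivSqZeroExt.inl_natCast, CharP.cast_eq_zero,
    TrivSqZeroExt.inl_zero, zero_smul]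

/-- Cocycle identity. -/
theorem IsFlatLift.add (h : IsFlatLift p r c) : ∀ g ∈ decG p, ∀ g' ∈ decG p,
    c (g * g') = r g * c g' * r g⁻¹ + c g := by
  obtain ⟨ρ, B, -, hB⟩ := h.lift
  intro g hg g' hg'
  have h1 := congrArg sndM (map_mul (matOf ρ B) g g')
  rw [sndM_mul, hB g hg, hB g' hg', hB _ ((decG p).mul_mem hg hg'), sndM_lift, sndM_lift,
    sndM_lift, fstM_lift, fstM_lift] at h1
  calc c (g * g') = c (g * g') * r (g * g') * r (g * g')⁻¹ := by
        rw [mul_assoc, map_mul_inv, mul_one]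
    _ = r g * c g' * (r g' * r g'⁻¹) * r g⁻¹ + c g * (r g * (r g' * r g'⁻¹) * r g⁻¹) := by
        rw [h1, mul_inv_rev, map_mul]; simp only [add_mul, mul_assoc]
    _ = _ := by simp only [map_mul_inv, mul_one]

/-- The ramification bound. -/
theorem IsFlatLift.exists_bdd (h : IsFlatLift p r c) :
    ∃ H : Subgroup GQ, IsLevel p H ∧ H ≤ tame p ∧ IsBdd p H ∧ ∀ g ∈ H, r g = 1 ∧ c g = 0 := by
  obtain ⟨ρ, B, hflat, hB⟩ := h.lift
  haveI := finite_dualNumber (k := k)
  letI := repAction ρ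
  haveI : Finite ρ.V := Module.finite_of_finite (DualNumber k)
  haveI := Fintype.ofFinite ρ.V
  obtain ⟨O⟩ := nonempty_galOrder_of_isFlatAt ρ hflat
  refine ⟨fixM p ρ.V ⊓ tame p, (isLevel_fixM O).inf (isLevel_fixer _), inf_le_right,
    isBdd_of_galOrder p O (nsmul_eq_zero_dual (k := k)), fun g hg => ?_⟩
  have hgD : g ∈ decG p := mem_decG_of_mem_tame hg.2
  have h1 : ρ.ρ g = 1 := LinearMap.ext fun v => ((mem_fixM p ρ.V).mp hg.1).2 v
  have h2 : matOf ρ B g = 1 := by
    show LinearMap.toMatrixAlgEquiv B (ρ.ρ g) = 1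
    rw [h1, map_one]
  rw [hB g hgD] at h2
  have h3 := congrArg fstM h2
  have h4 := congrArg sndM h2
  rw [fstM_lift, fstM_one] at h3
  rw [sndM_lift, sndM_one, h3, mul_one] at h4
  exact ⟨h3, h4⟩

/-- A common finite level. -/
theorem IsFlatLift.exists_level (h : IsFlatLift p r c) :
    ∃ L : IntermediateField ℚ QBar, FiniteDimensional ℚ L ∧ Normal ℚ L ∧
      ∀ g ∈ L.fixingSubgroup, g ∈ decG p → r g = 1 ∧ c g = 0 := by
  obtain ⟨ρ, B, -, hB⟩ := h.lift
  have hbot : IsLocalRing.maximalIdeal (DualNumber k) ^ 2 = ⊥ := by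
    rw [eq_bot_iff, pow_two, Ideal.mul_le]
    intro a ha b hb
    rw [IsLocalRing.mem_maximalIdeal, _root_.mem_nonunits_iff, TrivSqZeroExt.isUnit_iff_isUnit_fst,
      isUnit_iff_ne_zero, not_not] at ha hb
    rw [Ideal.mem_bot]
    exact TrivSqZeroExt.ext (by simp [ha, hb]) (by simp [ha, hb])
  obtain ⟨L₀, hL₀, hL₀'⟩ := (isCont_matOf ρ B).finiteLevel hbot
  haveI := hL₀
  haveI : Normal ℚ QBar := IsAlgClosure.normal ℚ QBar
  refine ⟨IntermediateField.normalClosure ℚ L₀ QBar, inferInstance,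
    normalClosure.normal ℚ L₀ QBar, fun g hg hgD => ?_⟩
  have h2 : matOf ρ B g = 1 := hL₀' g fun x hx =>
    (IntermediateField.mem_fixingSubgroup_iff _ _).mp hg x (L₀.le_normalClosure hx)
  rw [hB g hgD] at h2
  have h3 := congrArg fstM h2
  have h4 := congrArg sndM h2
  rw [fstM_lift, fstM_one] at h3
  rw [sndM_lift, sndM_one, h3, mul_one] at h4
  exact ⟨h3, h4⟩

theorem IsFlatLift.isLocalClass (h : IsFlatLift p r c) : IsLocalClass p r c := by
  obtain ⟨H, h1, h2, h3, h4⟩ := h.exists_bdd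
  obtain ⟨L, hL1, hL2, hL3⟩ := h.exists_level
  exact ⟨h.add, h.trace, h.off, ⟨H, h1, h2, h3, fun g hg => (h4 g hg).2⟩,
    ⟨L, hL1, hL2, fun g hg hgD => (hL3 g hg hgD).2⟩⟩

omit [Finite k] [Algebra (ZMod p) k] in
/-- The action in coordinates. -/
theorem apply_basis {ρ : GaloisRepAdic (DualNumber k)} {B : Basis (Fin 2) (DualNumber k) ρ.V}
    {g : GQ} {M : M2 (DualNumber k)} (hB : matOf ρ B g = M) (a b : DualNumber k) :
    ρ.ρ g (a • B 0 + b • B 1) =
      (a * M 0 0 + b * M 0 1) • B 0 + (a * M 1 0 + b * M 1 1) • B 1 := by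
  subst hB
  refine B.ext_elem fun i => ?_
  fin_cases i <;> simp [map_add, map_smul, matOf_apply]

omit [Finite k] [Algebra (ZMod p) k] in
theorem coord_one {V : Type} [AddCommGroup V] [Module (DualNumber k) V]
    (B : Basis (Fin 2) (DualNumber k) V) (a b : DualNumber k) :
    B.repr (a • B 0 + b • B 1) 1 = b := by simp

omit [Finite k] [Algebra (ZMod p) k] in
theorem coord_zero {V : Type} [AddCommGroup V] [Module (DualNumber k) V]
    (B : Basis (Fin 2) (DualNumber k) V) (a b : DualNumber k) :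
    B.repr (a • B 0 + b • B 1) 0 = a := by simp

/-- For an upper triangular decomposition group with unramified quotient and ramified sub line,
the lower left entry of a flat class is a coboundary. -/
theorem IsFlatLift.exists_spec (hp2 : p ≠ 2) (h : IsFlatLift p r c)
    (hup : ∀ g ∈ decG p, r g 1 0 = 0) (hI : ∀ g ∈ inG p, r g 1 1 = 1)
    {τ : GQ} (hτ : τ ∈ inG p) (ha : r τ 0 0 ≠ 1) :
    ∃ x : k, ∀ g ∈ decG p, c g 1 0 = x * (1 - r g 1 1 / r g 0 0) := by
  obtain ⟨ρ, B, hflat, hB⟩ := h.lift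
  haveI := finite_dualNumber (k := k)
  letI := repAction ρ
  haveI : Finite ρ.V := Module.finite_of_finite (DualNumber k)
  haveI := Fintype.ofFinite ρ.V
  obtain ⟨O⟩ := nonempty_galOrder_of_isFlatAt ρ hflat
  have hkill : ∀ m : ρ.V, p • m = 0 := nsmul_eq_zero_dual (k := k)
  set C := conn O
  have hsmul : ∀ (s : DualNumber k) {x : ρ.V}, x ∈ C → s • x ∈ C := fun s x hx =>
    map_mem_conn O hp2 hkill (DistribSMul.toAddMonoidHom ρ.V s)
      (fun σ _ m => ((ρ.ρ σ).map_smul s m).symm) hx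
  have hact : ∀ g ∈ decG p, ∀ a b : DualNumber k, g • (a • B 0 + b • B 1) =
      (a * ((1 + epsM (c g)) * inlM (r g)) 0 0 + b * ((1 + epsM (c g)) * inlM (r g)) 0 1) • B 0 +
      (a * ((1 + epsM (c g)) * inlM (r g)) 1 0 + b * ((1 + epsM (c g)) * inlM (r g)) 1 1) • B 1 :=
    fun g hg a b => apply_basis (hB g hg) a b
  simp only [lift_entry] at hact
  have hτD := inG_le_decG p hτ
  -- the infinitesimal sub line is connected
  have he0 : (TrivSqZeroExt.inr 1 : DualNumber k) • B 0 ∈ C := by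
    have h1 := smul_sub_mem_conn (O := O) hτ
      ((TrivSqZeroExt.inr 1 : DualNumber k) • B 0 + (0 : DualNumber k) • B 1)
    rw [hact τ hτD, add_sub_add_comm, ← sub_smul, ← sub_smul] at h1
    have h2 := hsmul (TrivSqZeroExt.inl (r τ 0 0 - 1)⁻¹) h1
    convert h2 using 1
    simp only [smul_add, smul_smul]
    rw [← add_zero ((TrivSqZeroExt.inr 1 : DualNumber k) • B 0),
      ← zero_smul (DualNumber k) (B 1)]
    congr 2
    · refine TrivSqZeroExt.ext (by simp) ?_
      simp [inv_mul_cancel₀ (sub_ne_zero.mpr ha)]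
    · refine TrivSqZeroExt.ext (by simp [hup τ hτD]) ?_
      simp [hup τ hτD]
  -- the infinitesimal quotient is not
  have he1 : (0 : DualNumber k) • B 0 + (TrivSqZeroExt.inr 1 : DualNumber k) • B 1 ∉ C := by
    intro hmem
    let L : AddSubgroup ρ.V := AddMonoidHom.range
      (AddMonoidHom.mk' (fun t : k => (TrivSqZeroExt.inr t : DualNumber k) • B 0 +
        (0 : DualNumber k) • B 1) fun s t => by
          simp [add_smul, zero_smul])
    have hL : ∀ σ ∈ inG p, ∀ l ∈ L, σ • l ∈ L := by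
      rintro σ hσ _ ⟨t, rfl⟩
      refine ⟨t * r σ 0 0, ?_⟩
      show (TrivSqZeroExt.inr (t * r σ 0 0) : DualNumber k) • B 0 + (0 : DualNumber k) • B 1 =
        σ • ((TrivSqZeroExt.inr t : DualNumber k) • B 0 + (0 : DualNumber k) • B 1)
      rw [hact σ (inG_le_decG p hσ)]
      congr 2
      · refine TrivSqZeroExt.ext (by simp) (by simp)
      · refine TrivSqZeroExt.ext (by simp) (by simp [hup σ (inG_le_decG p hσ)])
    obtain ⟨t, ht⟩ := mem_of_fixed_coset O hp2 hkill L hL hmem fun σ hσ => ⟨r σ 0 1, by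
      show (TrivSqZeroExt.inr (r σ 0 1) : DualNumber k) • B 0 + (0 : DualNumber k) • B 1 = _
      rw [hact σ (inG_le_decG p hσ), add_sub_add_comm, ← sub_smul, ← sub_smul]
      congr 2
      · exact TrivSqZeroExt.ext (by simp) (by simp)
      · exact TrivSqZeroExt.ext (by simp) (by simp [hI σ hσ])⟩
    have h1 := congrArg (fun v => (B.repr v 1).snd) ht
    simp at h1
  -- a connected lift of the sub line
  obtain ⟨x, hx⟩ : ∃ x : k,
      (1 : DualNumber k) • B 0 + (TrivSqZeroExt.inr x : DualNumber k) • B 1 ∈ C := by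
    refine ⟨(r τ 0 0 - 1)⁻¹ * (c τ * r τ) 1 0, ?_⟩
    have h1 := smul_sub_mem_conn (O := O) hτ ((1 : DualNumber k) • B 0 + (0 : DualNumber k) • B 1)
    rw [hact τ hτD, add_sub_add_comm, ← sub_smul, ← sub_smul] at h1
    have h2 := C.add_mem (hsmul (TrivSqZeroExt.inl (r τ 0 0 - 1)⁻¹) h1)
      (hsmul (TrivSqZeroExt.inl (-(r τ 0 0 - 1)⁻¹ * (c τ * r τ) 0 0)) he0)
    convert h2 using 1
    rw [smul_add, smul_smul, smul_smul, smul_smul, add_right_comm, ← add_smul]
    congr 2
    · refine TrivSqZeroExt.ext (by simp [inv_mul_cancel₀ (sub_ne_zero.mpr ha)]) ?_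
      simp
    · refine TrivSqZeroExt.ext (by simp [hup τ hτD]) ?_
      simp [hup τ hτD]
      ring
  refine ⟨x, fun g hg => ?_⟩
  have h1 := smul_mem_conn (O := O) (σ := g) hg hx
  rw [hact g hg] at h1
  have hu : r g 0 0 ≠ 0 := fun h0 => det_map_ne_zero r g (by
    rw [Matrix.det_fin_two, h0, hup g hg]; ring)
  by_contra hne
  refine he1 ?_
  set s : DualNumber k := 1 * (TrivSqZeroExt.inl (r g 0 0) + TrivSqZeroExt.inr ((c g * r g) 0 0)) +
    TrivSqZeroExt.inr x * (TrivSqZeroExt.inl (r g 0 1) + TrivSqZeroExt.inr ((c g * r g) 0 1))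
  have h2 := C.sub_mem h1 (hsmul s hx)
  set d := c g 1 0 * r g 0 0 + x * r g 1 1 - r g 0 0 * x with hd
  have hd0 : d ≠ 0 := fun h0 => hne (by field_simp; linear_combination h0)
  have h3 := hsmul (TrivSqZeroExt.inl d⁻¹) h2
  convert h3 using 1
  rw [smul_add, smul_smul, smul_smul, add_sub_add_comm, ← sub_smul, ← sub_smul, smul_add,
    smul_smul, smul_smul]
  congr 2
  · refine TrivSqZeroExt.ext (by simp) (by simp)
  · have key : 1 * (TrivSqZeroExt.inl (r g 1 0) + TrivSqZeroExt.inr ((c g * r g) 1 0)) +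
        TrivSqZeroExt.inr x * (TrivSqZeroExt.inl (r g 1 1) + TrivSqZeroExt.inr ((c g * r g) 1 1)) -
        s * TrivSqZeroExt.inr x = (TrivSqZeroExt.inr d : DualNumber k) := by
      refine TrivSqZeroExt.ext (by simp [s, hup g hg]) ?_
      simp [s, hup g hg, Matrix.mul_apply, Fin.sum_univ_two, hd]
      ring
    rw [key, TrivSqZeroExt.inl_mul_inr, smul_eq_mul, inv_mul_cancel₀ hd0]

/-- For an upper triangular decomposition group with unramified sub line and ramified quotient,
the residual representation has a second stable line. -/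
theorem IsFlatLift.exists_eigen (hp2 : p ≠ 2) (h : IsFlatLift p r c)
    (hup : ∀ g ∈ decG p, r g 1 0 = 0) (hI : ∀ g ∈ inG p, r g 0 0 = 1)
    {τ : GQ} (hτ : τ ∈ inG p) (ha : r τ 1 1 ≠ 1) :
    ∃ x : k, ∀ g ∈ decG p, x * r g 0 0 + r g 0 1 = x * r g 1 1 := by
  obtain ⟨ρ, B, hflat, hB⟩ := h.lift
  haveI := finite_dualNumber (k := k)
  letI := repAction ρ
  haveI : Finite ρ.V := Module.finite_of_finite (DualNumber k)
  haveI := Fintype.ofFinite ρ.V
  obtain ⟨O⟩ := nonempty_galOrder_of_isFlatAt ρ hflat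
  have hkill : ∀ m : ρ.V, p • m = 0 := nsmul_eq_zero_dual (k := k)
  set C := conn O
  have hsmul : ∀ (s : DualNumber k) {x : ρ.V}, x ∈ C → s • x ∈ C := fun s x hx =>
    map_mem_conn O hp2 hkill (DistribSMul.toAddMonoidHom ρ.V s)
      (fun σ _ m => ((ρ.ρ σ).map_smul s m).symm) hx
  have hact : ∀ g ∈ decG p, ∀ a b : DualNumber k, g • (a • B 0 + b • B 1) =
      (a * ((1 + epsM (c g)) * inlM (r g)) 0 0 + b * ((1 + epsM (c g)) * inlM (r g)) 0 1) • B 0 +
      (a * ((1 + epsM (c g)) * inlM (r g)) 1 0 + b * ((1 + epsM (c g)) * inlM (r g)) 1 1) • B 1 :=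
    fun g hg a b => apply_basis (hB g hg) a b
  simp only [lift_entry] at hact
  have hτD := inG_le_decG p hτ
  obtain ⟨x, hx⟩ : ∃ x : k, (TrivSqZeroExt.inr x : DualNumber k) • B 0 +
      (TrivSqZeroExt.inr 1 : DualNumber k) • B 1 ∈ C := by
    refine ⟨(r τ 1 1 - 1)⁻¹ * r τ 0 1, ?_⟩
    have h1 := smul_sub_mem_conn (O := O) hτ
      ((0 : DualNumber k) • B 0 + (TrivSqZeroExt.inr 1 : DualNumber k) • B 1)
    rw [hact τ hτD, add_sub_add_comm, ← sub_smul, ← sub_smul] at h1
    have h2 := hsmul (TrivSqZeroExt.inl (r τ 1 1 - 1)⁻¹) h1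
    convert h2 using 1
    rw [smul_add, smul_smul, smul_smul]
    congr 2
    · exact TrivSqZeroExt.ext (by simp) (by simp)
    · exact TrivSqZeroExt.ext (by simp)
        (by simp [inv_mul_cancel₀ (sub_ne_zero.mpr ha)])
  refine ⟨x, fun g hg => ?_⟩
  have h1 := smul_mem_conn (O := O) (σ := g) hg hx
  rw [hact g hg] at h1
  have h2 := C.sub_mem h1 (hsmul (TrivSqZeroExt.inl (r g 1 1)) hx)
  set d := x * r g 0 0 + r g 0 1 - x * r g 1 1 with hd
  have h3 : (TrivSqZeroExt.inr d : DualNumber k) • B 0 + (0 : DualNumber k) • B 1 ∈ C := by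
    convert h2 using 1
    rw [smul_add, smul_smul, smul_smul, add_sub_add_comm, ← sub_smul, ← sub_smul]
    congr 2
    · exact TrivSqZeroExt.ext (by simp) (by simp [hd]; try ring)
    · exact TrivSqZeroExt.ext (by simp) (by simp [hup g hg])
  -- fixed by inertia, hence trivial
  have h4 := mem_of_fixed_coset O hp2 hkill ⊥ (fun σ _ l hl => by
    rw [AddSubgroup.mem_bot.mp hl, smul_zero]; exact AddSubgroup.zero_mem _) h3 fun σ hσ => by
      rw [AddSubgroup.mem_bot, sub_eq_zero, hact σ (inG_le_decG p hσ)]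
      congr 2
      · exact TrivSqZeroExt.ext (by simp) (by simp [hI σ hσ])
      · exact TrivSqZeroExt.ext (by simp) (by simp [hup σ (inG_le_decG p hσ)])
  have h5 := congrArg (fun v => (B.repr v 0).snd) (AddSubgroup.mem_bot.mp h4)
  simp [hd] at h5
  exact sub_eq_zero.mp h5

end Fermat.Agent.CFT.Tangent
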